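import Fermat.Agent.ShortExpSums.Major
import Mathlib.NumberTheory.DiophantineApproximation.Basic

/-!
# The theorem of Matomäki, Radziwiłł and Tao on short exponential sums

`∑_{X < m ≤ 2 X} |∑_{m < n ≤ m + h} g n e (n α)| ^ 2 = o (X h ^ 2)` uniformly in `α`, for `g = λ`
and for every completely multiplicative `g` whose long sums twisted by `χ n n ^ (-it)` cancel.
-/

set_option autoImplicit false

noncomputable section

namespace FA.ShortExpSums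

open Finset Filter FA.ThreePrimes
open FA.ShortLiouville (Twist liou twistClassSum)

theorem eventually_mul_log_le {c : ℝ} (hc : 0 ≤ c) :
    ∀ᶠ h : ℕ in atTop, c * (1 + Real.log h) ≤ h := by
  have h1 := (tendsto_natCast_atTop_atTop (R := ℝ)).eventually
    (Real.isLittleO_log_id_atTop.bound (show 0 < 1 / (2 * (c + 1)) by positivity))
  filter_upwards [h1, eventually_ge_atTop (⌈2 * c⌉₊ + 1)] with h hl hh
  simp only [id_eq, Real.norm_eq_abs, Nat.abs_cast] at hl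
  have h2 : 2 * c ≤ h := (Nat.le_ceil _).trans (Nat.cast_le.2 (by omega))
  have h3 : c * Real.log h ≤ h / 2 := by
    refine (mul_le_mul_of_nonneg_left ((le_abs_self _).trans hl) hc).trans ?_
    rw [← mul_assoc, mul_one_div]
    have h4 : c / (2 * (c + 1)) ≤ 1 / 2 := by
      rw [div_le_iff₀ (by positivity)]
      linarith
    linarith [mul_le_mul_of_nonneg_right h4 (Nat.cast_nonneg (α := ℝ) h)]
  linarith

/-- The theorem of Matomäki, Radziwiłł and Tao from the classes in short intervals, uniformly in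
the function: the moduli up to a bound `W`, the precision `η ^ 2 / (W ^ 2 + 1)`. -/
theorem exists_winSum_le_of {ε : ℝ} (hε : 0 < ε) : ∃ (W : ℕ) (η : ℝ), 0 < η ∧ ∀ H : ℕ,
    ∃ H₀ : ℕ, ∀ (F : Twist) (X h : ℕ) (α : ℝ), H₀ ≤ h → h ≤ X →
      (∀ q Y h' r : ℕ, 1 ≤ q → q ≤ W → X ≤ Y → Y ≤ 2 * X → H ≤ h' → h' ≤ X →
        ∑ m ∈ Ioc Y (2 * Y), ‖twistClassSum F q r h' m‖ ^ 2 ≤
          η ^ 2 / ((W : ℝ) ^ 2 + 1) * Y * (h' : ℝ) ^ 2) →
      ∑ m ∈ Ioc X (2 * X), ‖winSum F.fn α h m‖ ^ 2 ≤ ε * X * (h : ℝ) ^ 2 := by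
  obtain ⟨η, hη, hη1, hηε⟩ : ∃ η : ℝ, 0 < η ∧ η ≤ 1 ∧ 406 * η ^ 2 ≤ ε := by
    refine ⟨min 1 (ε / 406), by positivity, min_le_left _ _, ?_⟩
    nlinarith [min_le_left 1 (ε / 406), min_le_right 1 (ε / 406),
      show 0 < min 1 (ε / 406) by positivity]
  obtain ⟨s, hs, hL⟩ := Katai.exists_primes_recipSum_ge 0 (14266 / ε + 1)
  obtain ⟨b, hb⟩ : ∃ b, b = s.sup id := ⟨_, rfl⟩
  have hsb : ∀ p ∈ s, p < 2 ^ b := fun p hp =>
    (show p ≤ b from hb ▸ le_sup (f := id) hp).trans_lt (Nat.lt_two_pow_self)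
  obtain ⟨W, hW⟩ : ∃ W, W = 2 ^ b := ⟨_, rfl⟩
  have hW1 : 1 ≤ W := hW ▸ Nat.one_le_two_pow
  refine ⟨W, η, hη, fun H => ?_⟩
  obtain ⟨H₀, hH₀⟩ := eventually_atTop.1 ((eventually_mul_log_le
    (c := 4 * W * ((H : ℝ) + 2) / η) (by positivity)).and (eventually_ge_atTop W))
  refine ⟨H₀, fun F X h α hh hhX hcls => ?_⟩
  obtain ⟨hlog, hWh⟩ := hH₀ h hh
  have hh1 : (1 : ℝ) ≤ h := Nat.one_le_cast.2 (hW1.trans hWh)
  obtain ⟨L, hLdef⟩ : ∃ L, L = 1 + Real.log h := ⟨_, rfl⟩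
  rw [← hLdef] at hlog
  have hL1 : 1 ≤ L := hLdef ▸ le_add_of_nonneg_right (Real.log_nonneg hh1)
  obtain ⟨Q, hQ⟩ : ∃ Q : ℝ, Q = h / (4 * W * L) := ⟨_, rfl⟩
  have hWR : (1 : ℝ) ≤ W := Nat.one_le_cast.2 hW1
  have hWL : (1 : ℝ) ≤ 4 * W * L := by nlinarith
  have hηQ : (H : ℝ) + 2 ≤ η * Q := by
    rw [hQ, ← mul_div_assoc, le_div_iff₀ (by linarith)]
    rw [div_mul_eq_mul_div, div_le_iff₀ hη] at hlog
    linarith
  have hQ0 : 0 < Q := hQ ▸ div_pos (by linarith) (by linarith)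
  have hQh : Q ≤ h := hQ ▸ div_le_self (Nat.cast_nonneg h) hWL
  have hQ1 : 1 ≤ Q := by nlinarith
  obtain ⟨r, hr, hrn⟩ :=
    Real.exists_rat_abs_sub_le_and_den_le α (Nat.floor_pos.2 hQ1 : 0 < ⌊Q⌋₊)
  obtain ⟨q, hq⟩ : ∃ q, q = r.den := ⟨_, rfl⟩
  have hq0 : 0 < q := hq ▸ r.den_pos
  rw [← hq] at hrn hr
  have hqQ : (q : ℝ) ≤ Q := (Nat.cast_le.2 hrn).trans (Nat.floor_le hQ0.le)
  have hqn : (q : ℝ) ≤ (⌊Q⌋₊ : ℝ) + 1 := (Nat.cast_le.2 hrn).trans (by linarith)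
  have hrq : (r : ℝ) = (r.num : ℝ) / q := by rw [hq, Rat.cast_def]
  rw [hrq] at hr
  rcases le_or_gt q W with hqW | hqW
  · obtain ⟨h', hh'⟩ : ∃ h', h' = ⌊η * Q⌋₊ := ⟨_, rfl⟩
    have hh'Q : (h' : ℝ) ≤ η * Q := hh' ▸ Nat.floor_le (by positivity)
    have hH' : H + 1 ≤ h' := hh' ▸ Nat.le_floor (by push_cast; linarith)
    have hβ : |α - r.num / q| * h' ≤ η := by
      refine (mul_le_mul hr hh'Q (Nat.cast_nonneg _) (by positivity)).trans ?_
      rw [one_div_mul_eq_div, div_le_iff₀ (by positivity)]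
      refine mul_le_mul_of_nonneg_left ?_ hη.le
      exact (Nat.lt_floor_add_one Q).le.trans
        (le_mul_of_one_le_right (by positivity) (Nat.one_le_cast.2 hq0))
    have hle : h' ≤ h :=
      Nat.cast_le.1 (hh'Q.trans ((mul_le_of_le_one_left hQ0.le hη1).trans hQh))
    refine le_trans (le_of_eq ?_) ((sum_winSum_major_le F W hη r.num hq0 hqW (by omega) hhX
      (hh'Q.trans (mul_le_mul_of_nonneg_left hQh hη.le)) hβ fun Y hY hY2 r' =>
        hcls q Y h' r' hq0 hqW hY hY2 (by omega) (hle.trans hhX)).trans ?_)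
    · rw [add_sub_cancel]
    · gcongr
  · have : NeZero q := ⟨hq0.ne'⟩
    have ha : IsUnit (r.num : ZMod q) := by
      rw [ZMod.coe_int_isUnit_iff_isCoprime, Int.isCoprime_iff_nat_coprime, Int.natAbs_natCast, hq]
      exact r.reduced.symm
    have hα : |α - r.num / q| ≤ 1 / (q : ℝ) ^ 2 := by
      refine hr.trans (one_div_le_one_div_of_le (by positivity) ?_)
      rw [sq]
      exact mul_le_mul_of_nonneg_right hqn (Nat.cast_nonneg q)
    have hqL : 1 + Real.log q ≤ L := by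
      rw [hLdef]
      linarith [Real.log_le_log (Nat.cast_pos.2 hq0) (hqQ.trans hQh)]
    have hmin : 2 * q * (1 + Real.log q) * 2 ^ b ≤ (h : ℝ) := by
      have h1 : 2 * (q : ℝ) * (1 + Real.log q) ≤ 2 * Q * L :=
        mul_le_mul (by linarith) hqL (by positivity [Real.log_natCast_nonneg q]) (by positivity)
      have h2 : (2 : ℝ) ^ b = W := by rw [hW]; push_cast; rfl
      rw [h2]
      refine (mul_le_mul_of_nonneg_right h1 (Nat.cast_nonneg W)).trans ?_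
      have h3 : 4 * W * L * Q = h := by rw [hQ, mul_div_cancel₀ _ (by linarith)]
      nlinarith
    have hL1' : 1 ≤ Katai.recipSum s := le_trans (le_add_of_nonneg_left (by positivity)) hL
    refine (sum_winSum_minor_le F (fun p hp => (hs p hp).1) hsb hL1' ha hα
      (hW ▸ hqW.le) (hW ▸ hWh) hhX hmin).trans ?_
    gcongr
    rw [div_le_iff₀ (by linarith)]
    have := mul_le_mul_of_nonneg_left hL hε.le
    rw [mul_add, mul_div_cancel₀ _ hε.ne'] at this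
    linarith

/-- **Matomäki, Radziwiłł and Tao.** -/
theorem exists_winSum_liou_le {ε : ℝ} (hε : 0 < ε) : ∃ H₀ X₀ : ℕ,
    ∀ (X h : ℕ) (α : ℝ), X₀ ≤ X → H₀ ≤ h → h ≤ X →
      ∑ m ∈ Ioc X (2 * X), ‖winSum liou α h m‖ ^ 2 ≤ ε * X * (h : ℝ) ^ 2 := by
  classical
  obtain ⟨W, η, hη, h⟩ := exists_winSum_le_of hε
  have : ∀ q : ℕ, ∃ H X₀ : ℕ, 1 ≤ q → ∀ X h r : ℕ, X₀ ≤ X → H ≤ h → h ≤ X →
      ∑ m ∈ Ioc X (2 * X), (ShortLiouville.classSum q r h m : ℝ) ^ 2 ≤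
        η ^ 2 / ((W : ℝ) ^ 2 + 1) * X * (h : ℝ) ^ 2 := fun q => by
    rcases Nat.eq_zero_or_pos q with rfl | hq
    · exact ⟨0, 0, fun h => absurd h (by norm_num)⟩
    · obtain ⟨H, X, h⟩ := ShortLiouville.exists_class_interval_le q hq
        (show 0 < η ^ 2 / ((W : ℝ) ^ 2 + 1) by positivity)
      exact ⟨H, X, fun _ => h⟩
  choose H Y hb using this
  obtain ⟨H₀, hH₀⟩ := h ((Icc 1 W).sup H)
  refine ⟨H₀, (Icc 1 W).sup Y, fun X k α hX hk hkX =>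
    hH₀ ShortLiouville.liouTwist X k α hk hkX fun q Z h' r hq hqW hZ _ hh' hh'X => ?_⟩
  simp only [ShortLiouville.norm_twistClassSum_liou, sq_abs]
  exact hb q hq Z h' r ((le_sup (mem_Icc.2 ⟨hq, hqW⟩)).trans (hX.trans hZ))
    ((le_sup (mem_Icc.2 ⟨hq, hqW⟩)).trans hh') (hh'X.trans hZ)

/-- **Matomäki, Radziwiłł and Tao, uniformly in the function**: if the long sums of
`g χ n n ^ (-it)` cancel for all moduli up to `W`, so do the short exponential sums of `g`. -/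
theorem exists_winSum_le {ε : ℝ} (hε : 0 < ε) : ∃ (δ : ℝ) (W H₀ X₀ : ℕ), 0 < δ ∧
    ∀ (F : Twist) (X h : ℕ) (α : ℝ), X₀ ≤ X → H₀ ≤ h → h ≤ X → F.RoughAt δ W X →
      ∑ m ∈ Ioc X (2 * X), ‖winSum F.fn α h m‖ ^ 2 ≤ ε * X * (h : ℝ) ^ 2 := by
  obtain ⟨W, η, hη, h⟩ := exists_winSum_le_of hε
  obtain ⟨δ, H, Y, hδ, hb⟩ := ShortLiouville.exists_twistClass_interval_le W
    (show 0 < η ^ 2 / ((W : ℝ) ^ 2 + 1) by positivity)
  obtain ⟨H₀, hH₀⟩ := h H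
  exact ⟨δ, W, H₀, Y, hδ, fun F X k α hX hk hkX hF => hH₀ F X k α hk hkX
    fun q Z h' r hq hqW hZ hZ2 hh' hh'X =>
      hb F X Z h' q r hq hqW hX hZ hZ2 hh' (hh'X.trans hZ) hF⟩

end FA.ShortExpSums

end
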