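import Fermat.Agent.ShortExpSums.Minor
import Fermat.Agent.ShortLiouville.Progressions

/-!
# Short exponential sums of multiplicative functions: major arcs

For `α = a / q + β` with `q` bounded the window is cut into windows of length `h'`, `|β| h'`
small: there the phase is periodic, and the classes in short intervals apply.
-/

set_option autoImplicit false

noncomputable section

namespace FA.ShortExpSums

open Finset FA.ThreePrimes
open FA.ShortLiouville (Twist twistClassSum)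
open scoped Real

theorem norm_eAdd_sub_le (x y : ℝ) : ‖eAdd x - eAdd y‖ ≤ 2 * π * |x - y| := by
  have e : eAdd x - eAdd y = eAdd y * (eAdd (x - y) - 1) := by
    rw [mul_sub, ← eAdd_add, add_sub_cancel, mul_one]
  rw [e, norm_mul, norm_eAdd, one_mul, eAdd, mul_comm ((_ : ℝ) : ℂ) Complex.I]
  refine Real.norm_exp_I_mul_ofReal_sub_one_le.trans (le_of_eq ?_)
  rw [Real.norm_eq_abs, abs_mul, abs_of_pos Real.two_pi_pos]

theorem eAdd_mul_div_mod {q : ℕ} (hq : 0 < q) (a : ℤ) (n : ℕ) :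
    eAdd (n * (a / q)) = eAdd ((n % q : ℕ) * (a / q)) := by
  have hq' : (q : ℝ) ≠ 0 := by positivity
  conv_lhs => rw [← Nat.mod_add_div n q]
  rw [show (((n % q + q * (n / q) : ℕ) : ℕ) : ℝ) * (a / q) =
    ((n % q : ℕ) : ℝ) * (a / q) + ((a * ((n / q : ℕ) : ℤ) : ℤ) : ℝ) by
      rw [Int.cast_mul, Int.cast_natCast]; push_cast; field_simp,
    eAdd_add_intCast]

/-- A window on which the phase is almost periodic. -/
theorem norm_winSum_major_le (F : Twist) {q : ℕ} (hq : 0 < q) (a : ℤ) {β η : ℝ} {h u : ℕ}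
    (hβ : |β| * h ≤ η) :
    ‖winSum F.fn (a / q + β) h u‖ ≤
      ∑ r ∈ range q, ‖twistClassSum F q r h u‖ + 7 * η * h := by
  have e : winSum F.fn (a / q + β) h u =
      eAdd (u * β) * ∑ n ∈ Ioc u (u + h), F.fn n * eAdd (n * (a / q)) +
        ∑ n ∈ Ioc u (u + h), F.fn n * eAdd (n * (a / q)) * (eAdd (n * β) - eAdd (u * β)) := by
    rw [winSum, mul_sum, ← sum_add_distrib]
    refine sum_congr rfl fun n _ => ?_
    rw [mul_add, eAdd_add]
    ring
  rw [e]
  refine (norm_add_le _ _).trans (add_le_add ?_ ?_)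
  · rw [norm_mul, norm_eAdd, one_mul, ← sum_fiberwise_of_maps_to (t := range q)
      (g := fun n => n % q) fun n _ => mem_range.2 (Nat.mod_lt n hq)]
    refine (norm_sum_le _ _).trans (sum_le_sum fun r hr => le_of_eq ?_)
    rw [sum_congr rfl fun n hn => show F.fn n * eAdd (n * (a / q)) =
      F.fn n * eAdd ((r : ℝ) * (a / q)) by rw [eAdd_mul_div_mod hq a n, (mem_filter.1 hn).2],
      ← sum_mul, norm_mul, norm_eAdd, mul_one, twistClassSum]
    refine congrArg norm (sum_congr ?_ fun n _ => rfl)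
    refine filter_congr fun n _ => ?_
    rw [Nat.ModEq, Nat.mod_eq_of_lt (mem_range.1 hr)]
  · refine (norm_sum_le _ _).trans ((sum_le_card_nsmul _ _ (7 * η) fun n hn => ?_).trans ?_)
    · rw [mem_Ioc] at hn
      rw [norm_mul]
      refine (mul_le_of_le_one_left (norm_nonneg _) ?_).trans
        ((norm_eAdd_sub_le _ _).trans ?_)
      · rw [norm_mul, norm_eAdd, mul_one]
        exact F.norm_le n
      · have h1 : |((n : ℝ) * β - u * β)| ≤ η := by
          rw [← sub_mul, abs_mul, mul_comm]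
          refine le_trans (mul_le_mul_of_nonneg_left ?_ (abs_nonneg β)) hβ
          rw [abs_of_nonneg (sub_nonneg.2 (Nat.cast_le.2 hn.1.le)), sub_le_iff_le_add]
          exact_mod_cast (by omega : n ≤ h + u)
        exact mul_le_mul (by linarith [Real.pi_lt_d2]) h1 (abs_nonneg _) (by norm_num)
    · rw [Nat.card_Ioc, Nat.add_sub_cancel_left, nsmul_eq_mul, mul_comm]

theorem sum_shift_le {G : ℕ → ℝ} (hG : ∀ n, 0 ≤ G n) {X j : ℕ} (hj : j ≤ X) :
    ∑ m ∈ Ioc X (2 * X), G (m + j) ≤ ∑ u ∈ Ioc X (3 * X), G u := by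
  rw [← sum_image (g := fun m => m + j) (f := G) fun x _ y _ e => by simpa using e]
  refine sum_le_sum_of_subset_of_nonneg (fun u hu => ?_) fun u _ _ => hG u
  obtain ⟨m, hm, rfl⟩ := mem_image.1 hu
  rw [mem_Ioc] at hm ⊢
  omega

theorem winSum_split (g : ℕ → ℂ) (α : ℝ) (h' m : ℕ) : ∀ k : ℕ,
    winSum g α (k * h') m = ∑ i ∈ range k, winSum g α h' (m + i * h')
  | 0 => by simp [winSum]
  | k + 1 => by
    rw [sum_range_succ, ← winSum_split g α h' m k, winSum, winSum, winSum,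
      show m + (k + 1) * h' = m + k * h' + h' by ring]
    exact (sum_Ioc_consecutive _ (Nat.le_add_right _ _) (Nat.le_add_right _ _)).symm

/-- **Major arcs**, from the classes in short intervals. -/
theorem sum_winSum_major_le (F : Twist) (W : ℕ) {η : ℝ} (hη : 0 < η)
    {X h h' q : ℕ} (a : ℤ) {β : ℝ} (hq : 1 ≤ q) (hqW : q ≤ W) (hh' : 1 ≤ h') (hhX : h ≤ X)
    (hh'h : (h' : ℝ) ≤ η * h) (hβ : |β| * h' ≤ η)
    (hcls : ∀ Y, X ≤ Y → Y ≤ 2 * X → ∀ r,
      ∑ m ∈ Ioc Y (2 * Y), ‖twistClassSum F q r h' m‖ ^ 2 ≤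
        η ^ 2 / ((W : ℝ) ^ 2 + 1) * Y * (h' : ℝ) ^ 2) :
    ∑ m ∈ Ioc X (2 * X), ‖winSum F.fn (a / q + β) h m‖ ^ 2 ≤
      406 * η ^ 2 * X * (h : ℝ) ^ 2 := by
  obtain ⟨G, hG⟩ : ∃ G : ℕ → ℝ, G = fun u => ‖winSum F.fn (a / q + β) h' u‖ ^ 2 := ⟨_, rfl⟩
  have hG0 : ∀ u, 0 ≤ G u := fun u => hG ▸ sq_nonneg _
  have hsub : ∑ u ∈ Ioc X (3 * X), G u ≤ 202 * η ^ 2 * X * (h' : ℝ) ^ 2 := by
    calc ∑ u ∈ Ioc X (3 * X), G u
        ≤ ∑ u ∈ Ioc X (3 * X), (2 * (q * ∑ r ∈ range q, ‖twistClassSum F q r h' u‖ ^ 2) +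
            98 * (η ^ 2 * (h' : ℝ) ^ 2)) := by
          refine sum_le_sum fun u _ => ?_
          simp only [hG]
          refine (pow_le_pow_left₀ (norm_nonneg _) (norm_winSum_major_le F hq a hβ) 2).trans
            (add_sq_le.trans (le_of_le_of_eq
              (mul_le_mul_of_nonneg_left (add_le_add_left sq_sum_le_card_mul_sum_sq _) two_pos.le)
              ?_))
          simp only [card_range]
          ring
      _ = 2 * (q * ∑ r ∈ range q, ∑ u ∈ Ioc X (3 * X), ‖twistClassSum F q r h' u‖ ^ 2) +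
            196 * η ^ 2 * X * (h' : ℝ) ^ 2 := by
          rw [sum_add_distrib, ← mul_sum, ← mul_sum, sum_comm, sum_const, Nat.card_Ioc,
            nsmul_eq_mul, Nat.cast_sub (by omega)]
          push_cast
          ring
      _ ≤ 2 * (q * (q * (3 * (η ^ 2 / ((W : ℝ) ^ 2 + 1)) * X * (h' : ℝ) ^ 2))) +
            196 * η ^ 2 * X * (h' : ℝ) ^ 2 := by
          refine add_le_add (mul_le_mul_of_nonneg_left (mul_le_mul_of_nonneg_left ?_
            (Nat.cast_nonneg q)) two_pos.le) le_rfl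
          refine ((sum_le_card_nsmul _ _ (3 * (η ^ 2 / ((W : ℝ) ^ 2 + 1)) * X * (h' : ℝ) ^ 2)
            fun r _ => ?_).trans_eq (by rw [card_range, nsmul_eq_mul]))
          refine (sum_le_sum_of_subset_of_nonneg (t := Ioc X (2 * X) ∪ Ioc (2 * X) (2 * (2 * X)))
            (fun u hu => ?_) fun u _ _ => sq_nonneg _).trans ?_
          · rw [mem_union, mem_Ioc, mem_Ioc]
            rw [mem_Ioc] at hu
            omega
          rw [sum_union (Ioc_disjoint_Ioc_of_le le_rfl)]
          refine (add_le_add (hcls X le_rfl (by omega) r) (hcls (2 * X) (by omega) le_rfl r)).trans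
            (le_of_eq ?_)
          push_cast
          ring
      _ ≤ _ := by
          have hqR : (q : ℝ) ^ 2 ≤ (W : ℝ) ^ 2 + 1 :=
            (pow_le_pow_left₀ (Nat.cast_nonneg q) (Nat.cast_le.2 hqW) 2).trans (by linarith)
          have h1 : (q : ℝ) ^ 2 * (η ^ 2 / ((W : ℝ) ^ 2 + 1)) ≤ η ^ 2 := by
            rw [← mul_div_assoc, div_le_iff₀ (by positivity), mul_comm (η ^ 2)]
            exact mul_le_mul_of_nonneg_right hqR (sq_nonneg η)
          have := mul_le_mul_of_nonneg_right h1 (show 0 ≤ (X : ℝ) * (h' : ℝ) ^ 2 by positivity)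
          linarith
  obtain ⟨k, hk⟩ : ∃ k, k = h / h' := ⟨_, rfl⟩
  have hkh : k * h' ≤ h := hk ▸ Nat.div_mul_le_self h h'
  have hrest : h - k * h' ≤ h' := by
    have := Nat.lt_mul_div_succ h (show 0 < h' by omega)
    rw [← hk, mul_comm, add_mul, one_mul] at this
    omega
  have hpt : ∀ m, ‖winSum F.fn (a / q + β) h m‖ ^ 2 ≤
      2 * k * ∑ i ∈ range k, G (m + i * h') + 2 * (η * h) ^ 2 := fun m => by
    have e : winSum F.fn (a / q + β) h m = winSum F.fn (a / q + β) (k * h') m +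
        winSum F.fn (a / q + β) (h - k * h') (m + k * h') := by
      rw [winSum, winSum, winSum, add_assoc, Nat.add_sub_cancel' hkh]
      exact (sum_Ioc_consecutive _ (Nat.le_add_right _ _) (by omega)).symm
    rw [e, winSum_split]
    refine (pow_le_pow_left₀ (norm_nonneg _) ((norm_add_le _ _).trans
      (add_le_add (norm_sum_le _ _) ((norm_winSum_le F.norm_le _ _ _).trans
        ((Nat.cast_le.2 hrest).trans hh'h)))) 2).trans (add_sq_le.trans ?_)
    rw [mul_add, mul_assoc (2 : ℝ) k]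
    refine add_le_add (mul_le_mul_of_nonneg_left (le_of_le_of_eq sq_sum_le_card_mul_sum_sq ?_)
      two_pos.le) le_rfl
    simp [hG]
  refine (sum_le_sum fun m _ => hpt m).trans ?_
  rw [sum_add_distrib, ← mul_sum, sum_comm, sum_const, Nat.card_Ioc, nsmul_eq_mul]
  have hmain : ∑ i ∈ range k, ∑ m ∈ Ioc X (2 * X), G (m + i * h') ≤
      k * (202 * η ^ 2 * X * (h' : ℝ) ^ 2) := by
    refine ((sum_le_card_nsmul _ _ _ fun i hi => ?_).trans_eq
      (by rw [card_range, nsmul_eq_mul]))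
    refine (sum_shift_le hG0 ?_).trans hsub
    exact (Nat.mul_le_mul_right h' (mem_range.1 hi).le).trans (hkh.trans hhX)
  have hkR : ((k : ℝ) * h') ^ 2 ≤ (h : ℝ) ^ 2 :=
    pow_le_pow_left₀ (by positivity) (by exact_mod_cast hkh) 2
  rw [show 2 * X - X = X by omega]
  refine (add_le_add (mul_le_mul_of_nonneg_left hmain (by positivity)) le_rfl).trans ?_
  have := mul_le_mul_of_nonneg_left hkR (show 0 ≤ 404 * η ^ 2 * (X : ℝ) by positivity)
  linarith

end FA.ShortExpSums

end
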