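import Fermat.Agent.ShortLiouville.Basic
import Fermat.Agent.ThreePrimes.Exponential
import Fermat.Agent.Katai.Criterion

/-!
# Short exponential sums of a completely multiplicative function: minor arcs

Turán's inequality makes `∑_{m < n ≤ m + h} g n e (n α)` bilinear over a finite set of primes.
For the primes in `[P, 2 P]` the mean square of the bilinear sum is `O (X h² / P)` if the
denominator of `α` is between `P` and about `h / (P log h)`.
-/

set_option autoImplicit false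

noncomputable section

namespace FA.ShortExpSums

open Finset FA.ThreePrimes FA.Katai
open FA.ShortLiouville (Twist)
open scoped ComplexConjugate

/-- `∑_{m < n ≤ m + h} g n e (n α)`. -/
def winSum (g : ℕ → ℂ) (α : ℝ) (h m : ℕ) : ℂ := ∑ n ∈ Ioc m (m + h), g n * eAdd (n * α)

theorem norm_winSum_le {g : ℕ → ℂ} (hg : ∀ n, ‖g n‖ ≤ 1) (α : ℝ) (h m : ℕ) :
    ‖winSum g α h m‖ ≤ h := by
  refine (norm_sum_le _ _).trans ((sum_le_card_nsmul _ _ 1 fun n _ => ?_).trans ?_)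
  · rw [norm_mul, norm_eAdd, mul_one]
    exact hg n
  · simp

/-- A term of the bilinear form. -/
def bilTerm (u : ℕ → ℂ) (α : ℝ) (h m p l : ℕ) : ℂ :=
  if p * l ∈ Ioc m (m + h) then u p * eAdd ((p * l : ℕ) * α) else 0

/-- The bilinear form of a block of primes. -/
def blockSum (s : Finset ℕ) (u g : ℕ → ℂ) (α : ℝ) (N h m : ℕ) : ℂ :=
  ∑ p ∈ s, ∑ l ∈ Ioc 0 N, g l * bilTerm u α h m p l

/-- The correlation of two terms. -/
def bilKernel (u : ℕ → ℂ) (α : ℝ) (N h : ℕ) (z z' : ℕ × ℕ) : ℝ :=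
  ‖∑ l ∈ Ioc 0 N, bilTerm u α h z.1 z.2 l * conj (bilTerm u α h z'.1 z'.2 l)‖

theorem bilKernel_comm (u : ℕ → ℂ) (α : ℝ) (N h : ℕ) (z z' : ℕ × ℕ) :
    bilKernel u α N h z z' = bilKernel u α N h z' z := by
  rw [bilKernel, bilKernel, ← Complex.norm_conj, map_sum]
  refine congrArg norm (sum_congr rfl fun l _ => ?_)
  rw [map_mul, Complex.conj_conj, mul_comm]

open scoped Classical in
theorem bilKernel_le {u : ℕ → ℂ} (hu : ∀ n, ‖u n‖ ≤ 1) (α : ℝ) {N h P : ℕ} (hP : 1 ≤ P)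
    {z z' : ℕ × ℕ} (hz : P ≤ z.2) (hz' : P ≤ z'.2) :
    bilKernel u α N h z' z ≤
      if ∃ l, z.2 * l ∈ Ioc z.1 (z.1 + h) ∧ z'.2 * l ∈ Ioc z'.1 (z'.1 + h) then
        clip (h / P + 1) ((z'.2 - z.2) * α) else 0 := by
  obtain ⟨m, p⟩ := z
  obtain ⟨m', p'⟩ := z'
  simp only at hz hz' ⊢
  have hp : 0 < p := by omega
  have hp' : 0 < p' := by omega
  split_ifs with hex
  · obtain ⟨A, hA⟩ : ∃ A, A = max (m / p) (m' / p') := ⟨_, rfl⟩
    obtain ⟨B, hB⟩ : ∃ B, B = min (min ((m + h) / p) ((m' + h) / p')) N := ⟨_, rfl⟩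
    have hfil : (Ioc 0 N).filter (fun l => p' * l ∈ Ioc m' (m' + h) ∧ p * l ∈ Ioc m (m + h)) =
        Ioc A B := by
      ext l
      simp only [hA, hB, mem_filter, mem_Ioc, max_lt_iff, le_min_iff, Nat.div_lt_iff_lt_mul hp,
        Nat.div_lt_iff_lt_mul hp', Nat.le_div_iff_mul_le hp, Nat.le_div_iff_mul_le hp',
        mul_comm l]
      constructor
      · tauto
      · rintro ⟨⟨h1, h2⟩, ⟨h3, h4⟩, h5⟩
        exact ⟨⟨Nat.pos_of_ne_zero fun h0 => by simp [h0] at h1, h5⟩, ⟨h2, h4⟩, h1, h3⟩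
    have he : ∑ l ∈ Ioc 0 N, bilTerm u α h m' p' l * conj (bilTerm u α h m p l) =
        u p' * conj (u p) * ∑ l ∈ Ioc A B, eAdd (l * ((p' - p) * α)) := by
      rw [← hfil, sum_filter, mul_sum]
      refine sum_congr rfl fun l _ => ?_
      unfold bilTerm
      split_ifs with h1 h2 h3 <;> try simp_all
      rw [mul_mul_mul_comm, conj_eAdd, ← eAdd_add]
      congr 2
      ring
    rw [bilKernel, he, norm_mul, norm_mul, Complex.norm_conj]
    refine (mul_le_of_le_one_left (norm_nonneg _) (mul_le_one₀ (hu _) (norm_nonneg _) (hu _))).trans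
      ((norm_geom_le _ A B).trans (clip_mono ?_ _))
    have h1 : B - A ≤ h / p + 1 := by
      have h2 : B ≤ (m + h) / p := hB ▸ (min_le_left _ _).trans (min_le_left _ _)
      have h3 : m / p ≤ A := hA ▸ le_max_left _ _
      have h4 : (m + h) / p ≤ m / p + h / p + 1 := by
        rw [Nat.add_div hp]
        split_ifs <;> omega
      generalize (m + h) / p = x, m / p = y, h / p = z at h2 h3 h4 ⊢
      omega
    refine (Nat.cast_le.2 h1).trans ?_
    push_cast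
    exact add_le_add (Nat.cast_div_le.trans (div_le_div_of_nonneg_left (Nat.cast_nonneg _)
      (Nat.cast_pos.2 hP) (Nat.cast_le.2 hz))) le_rfl
  · refine le_of_eq ?_
    rw [bilKernel, sum_eq_zero fun l _ => ?_, norm_zero]
    unfold bilTerm
    split_ifs with h1 h2 <;> simp
    exact (hex ⟨l, h2, h1⟩).elim

open scoped Classical in
theorem card_bilKernel_supp_le {h P m p p' : ℕ} (hP : 1 ≤ P) (hp : P ≤ p) (hp' : p' ≤ 2 * P)
    (M : Finset ℕ) :
    (M.filter fun m' => ∃ l, p * l ∈ Ioc m (m + h) ∧ p' * l ∈ Ioc m' (m' + h)).card ≤ 3 * h := by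
  refine (card_le_card (t := Ico (p' * (m / p + 1) - h) (p' * ((m + h) / p)))
    fun m' hm' => ?_).trans ?_
  · obtain ⟨l, h1, h2⟩ := (mem_filter.1 hm').2
    rw [mem_Ioc] at h1 h2
    have hl1 : m / p + 1 ≤ l := by
      rw [Nat.succ_le_iff, Nat.div_lt_iff_lt_mul (by omega), mul_comm]
      exact h1.1
    have hl2 : l ≤ (m + h) / p := by
      rw [Nat.le_div_iff_mul_le (by omega), mul_comm]
      exact h1.2
    have := Nat.mul_le_mul_left p' hl1
    have := Nat.mul_le_mul_left p' hl2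
    rw [mem_Ico]
    omega
  · rw [Nat.card_Ico]
    have h1 : (m + h) / p ≤ m / p + h / p + 1 := by
      rw [Nat.add_div (by omega : 0 < p)]
      split_ifs <;> omega
    have h2 := Nat.mul_le_mul_left p' h1
    have h3 : p' * (h / p) ≤ 2 * h := calc
      p' * (h / p) ≤ 2 * p * (h / p) := Nat.mul_le_mul_right _ (by omega)
      _ = 2 * (p * (h / p)) := by ring
      _ ≤ 2 * h := Nat.mul_le_mul_left 2 (Nat.mul_div_le h p)
    simp only [mul_add, mul_one] at h2 ⊢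
    omega

/-- **The mean square of a block**, through the geometric sums. -/
theorem sum_blockSum_sq_le {s : Finset ℕ} {u g : ℕ → ℂ} (hu : ∀ n, ‖u n‖ ≤ 1)
    (hg : ∀ n, ‖g n‖ ≤ 1) (α : ℝ) {N h P : ℕ} (hP : 1 ≤ P) (hs : s ⊆ Icc P (2 * P))
    (M : Finset ℕ) :
    ∑ m ∈ M, ‖blockSum s u g α N h m‖ ^ 2 ≤
      N * (3 * h * ∑ p ∈ s, ∑ p' ∈ s, clip ((h : ℝ) / P + 1) ((p' - p) * α)) := by
  obtain ⟨B, hB⟩ : ∃ B : ℕ → ℂ, B = blockSum s u g α N h := ⟨_, rfl⟩
  obtain ⟨T, hT⟩ : ∃ T : ℕ → ℂ,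
      T = fun l => ∑ z ∈ M ×ˢ s, conj (B z.1) * bilTerm u α h z.1 z.2 l := ⟨_, rfl⟩
  obtain ⟨σ, hσ⟩ : ∃ σ : ℝ,
      σ = 3 * h * ∑ p ∈ s, ∑ p' ∈ s, clip ((h : ℝ) / P + 1) ((p' - p) * α) := ⟨_, rfl⟩
  obtain ⟨S, hS⟩ : ∃ S, S = ∑ m ∈ M, ‖B m‖ ^ 2 := ⟨_, rfl⟩
  have hS0 : 0 ≤ S := hS ▸ sum_nonneg fun m _ => sq_nonneg _
  have hZ : (0 : ℝ) ≤ (h : ℝ) / P + 1 := by positivity
  have hσ0 : 0 ≤ σ := hσ ▸ mul_nonneg (by positivity)
    (sum_nonneg fun p _ => sum_nonneg fun p' _ => clip_nonneg hZ _)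
  have e : (S : ℂ) = ∑ l ∈ Ioc 0 N, g l * T l := by
    rw [hS, Complex.ofReal_sum]
    simp only [hT, mul_sum]
    rw [sum_comm, sum_product]
    refine sum_congr rfl fun m _ => ?_
    rw [Complex.ofReal_pow, ← Complex.conj_mul']
    nth_rewrite 2 [hB]
    rw [blockSum, mul_sum]
    refine sum_congr rfl fun p _ => ?_
    rw [mul_sum]
    exact sum_congr rfl fun l _ => by ring
  have h1 : S ≤ ∑ l ∈ Ioc 0 N, ‖T l‖ := by
    have := congrArg norm e
    rw [Complex.norm_real, Real.norm_of_nonneg hS0] at this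
    rw [this]
    refine (norm_sum_le _ _).trans (sum_le_sum fun l _ => ?_)
    rw [norm_mul]
    exact mul_le_of_le_one_left (norm_nonneg _) (hg l)
  have h2 : ∑ l ∈ Ioc 0 N, ‖T l‖ ^ 2 ≤
      ∑ z ∈ M ×ˢ s, ∑ z' ∈ M ×ˢ s, ‖B z.1‖ * ‖B z'.1‖ * bilKernel u α N h z z' := by
    have e2 : ((∑ l ∈ Ioc 0 N, ‖T l‖ ^ 2 : ℝ) : ℂ) = ∑ z ∈ M ×ˢ s, ∑ z' ∈ M ×ˢ s,
        conj (B z.1) * B z'.1 * ∑ l ∈ Ioc 0 N, bilTerm u α h z.1 z.2 l *
          conj (bilTerm u α h z'.1 z'.2 l) := by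
      simp only [mul_sum]
      rw [Complex.ofReal_sum]
      simp only [Complex.ofReal_pow, ← Complex.mul_conj', hT, map_sum, map_mul,
        Complex.conj_conj, sum_mul_sum]
      rw [sum_comm]
      refine sum_congr rfl fun z _ => ?_
      rw [sum_comm]
      exact sum_congr rfl fun z' _ => sum_congr rfl fun l _ => by ring
    have h3 := congrArg norm e2
    rw [Complex.norm_real, Real.norm_of_nonneg (sum_nonneg fun l _ => sq_nonneg _)] at h3
    rw [h3]
    refine (norm_sum_le _ _).trans (sum_le_sum fun z _ => (norm_sum_le _ _).trans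
      (sum_le_sum fun z' _ => le_of_eq ?_))
    rw [norm_mul, norm_mul, Complex.norm_conj, bilKernel]
  have h3 : ∑ z ∈ M ×ˢ s, ∑ z' ∈ M ×ˢ s, ‖B z.1‖ * ‖B z'.1‖ * bilKernel u α N h z z' ≤
      ∑ z ∈ M ×ˢ s, ‖B z.1‖ ^ 2 * ∑ z' ∈ M ×ˢ s, bilKernel u α N h z' z := by
    refine le_trans (sum_le_sum fun z _ => sum_le_sum fun z' _ =>
      (show _ ≤ (‖B z.1‖ ^ 2 * bilKernel u α N h z' z +
          ‖B z'.1‖ ^ 2 * bilKernel u α N h z z') / 2 from ?_)) (le_of_eq ?_)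
    · rw [bilKernel_comm u α N h z' z]
      have : 0 ≤ bilKernel u α N h z z' := norm_nonneg _
      nlinarith [sq_nonneg (‖B z.1‖ - ‖B z'.1‖)]
    · simp only [mul_sum, ← sum_div, sum_add_distrib]
      rw [sum_comm (f := fun z z' => ‖B z'.1‖ ^ 2 * bilKernel u α N h z z')]
      ring
  have h4 : ∑ z ∈ M ×ˢ s, ‖B z.1‖ ^ 2 * ∑ z' ∈ M ×ˢ s, bilKernel u α N h z' z ≤ σ * S := by
    rw [hS, mul_sum, sum_product]
    refine sum_le_sum fun m _ => ?_
    simp only [← mul_sum]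
    rw [mul_comm σ]
    refine mul_le_mul_of_nonneg_left ?_ (sq_nonneg _)
    rw [hσ, mul_sum]
    refine sum_le_sum fun p hp => ?_
    rw [sum_product, sum_comm, mul_sum]
    refine sum_le_sum fun p' hp' => ?_
    have hpP := mem_Icc.1 (hs hp)
    have hpP' := mem_Icc.1 (hs hp')
    refine (sum_le_sum fun m' _ =>
      bilKernel_le (z := (m, p)) (z' := (m', p')) hu α hP hpP.1 hpP'.1).trans ?_
    simp only [← sum_filter, sum_const, nsmul_eq_mul]
    refine mul_le_mul_of_nonneg_right ?_ (clip_nonneg hZ _)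
    exact_mod_cast card_bilKernel_supp_le hP hpP.1 hpP'.2 M
  have h5 : S ^ 2 ≤ N * (σ * S) := by
    refine ((pow_le_pow_left₀ hS0 h1 2).trans sq_sum_le_card_mul_sum_sq).trans ?_
    rw [Nat.card_Ioc, Nat.sub_zero]
    exact mul_le_mul_of_nonneg_left (h2.trans (h3.trans h4)) (Nat.cast_nonneg N)
  rw [← hσ, ← hB, ← hS]
  rcases hS0.eq_or_lt with h0 | h0
  · rw [← h0]
    positivity
  · exact le_of_mul_le_mul_right (by linarith) h0

/-- **A block, minor arcs.** -/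
theorem sum_blockSum_minor_le {s : Finset ℕ} {u g : ℕ → ℂ} (hu : ∀ n, ‖u n‖ ≤ 1)
    (hg : ∀ n, ‖g n‖ ≤ 1) {α : ℝ} {q : ℕ} [NeZero q] {a : ℤ} (ha : IsUnit (a : ZMod q))
    (hα : |α - a / q| ≤ 1 / (q : ℝ) ^ 2) {X h P : ℕ} (hP : 1 ≤ P) (hs : s ⊆ Icc P (2 * P))
    (hPq : P ≤ q) (hPh : P ≤ h) (hq : 2 * q * (1 + Real.log q) * P ≤ h) (M : Finset ℕ) :
    ∑ m ∈ M, ‖blockSum s u g α (3 * X / P) h m‖ ^ 2 ≤ 594 * X * (h : ℝ) ^ 2 / P := by
  have hP0 : (0 : ℝ) < P := Nat.cast_pos.2 hP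
  have hq0 : (0 : ℝ) < q := Nat.cast_pos.2 (NeZero.pos q)
  have hPh' : (P : ℝ) ≤ h := Nat.cast_le.2 hPh
  have hPq' : (P : ℝ) ≤ q := Nat.cast_le.2 hPq
  have hrow : ∀ p ∈ s,
      ∑ p' ∈ s, clip ((h : ℝ) / P + 1) ((p' - p) * α) ≤ 33 * h / P := fun p _ => by
    refine (sum_le_sum_of_subset_of_nonneg hs
      fun p' _ _ => clip_nonneg (by positivity) _).trans ?_
    rw [show Icc P (2 * P) = (range (P + 1)).map (addLeftEmbedding P) by
      ext k
      simp only [mem_Icc, mem_map, mem_range, addLeftEmbedding_apply]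
      exact ⟨fun hk => ⟨k - P, by omega, by omega⟩, by rintro ⟨j, hj, rfl⟩; omega⟩, sum_map]
    refine le_trans (le_of_eq (sum_congr rfl fun k _ => ?_)) ((sum_clip_range_le ha hα
      (((P : ℝ) - p) * α) (Z := (h : ℝ) / P + 1) (by positivity) (P + 1)).trans ?_)
    · congr 1
      simp only [addLeftEmbedding_apply]
      push_cast
      ring
    have h1 : ((P + 1 : ℕ) : ℝ) / q + 1 ≤ 3 := by
      rw [← le_sub_iff_add_le, div_le_iff₀ hq0]
      push_cast
      have : (1 : ℝ) ≤ P := Nat.one_le_cast.2 hP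
      linarith
    have h2 : 5 * ((h : ℝ) / P + 1) + 2 * q * (1 + Real.log q) ≤ 11 * h / P := by
      rw [le_div_iff₀ hP0, add_mul, mul_assoc, add_mul, div_mul_cancel₀ _ hP0.ne']
      linarith
    refine (mul_le_mul h1 h2 (by positivity [Real.log_natCast_nonneg q]) (by norm_num)).trans
      (le_of_eq (by ring))
  refine (sum_blockSum_sq_le hu hg α hP hs M).trans ?_
  have hN : ((3 * X / P : ℕ) : ℝ) ≤ 3 * X / P := by
    refine Nat.cast_div_le.trans (le_of_eq ?_)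
    push_cast
    ring
  have hcard : (s.card : ℝ) ≤ 2 * P := by
    exact_mod_cast (card_le_card hs).trans (by rw [Nat.card_Icc]; omega)
  have hsum : ∑ p ∈ s, ∑ p' ∈ s, clip ((h : ℝ) / P + 1) ((p' - p) * α) ≤ 66 * h := by
    refine ((sum_le_card_nsmul _ _ _ hrow).trans_eq (nsmul_eq_mul _ _)).trans
      ((mul_le_mul_of_nonneg_right hcard (by positivity)).trans (le_of_eq ?_))
    field_simp
    ring
  refine (mul_le_mul hN (mul_le_mul_of_nonneg_left hsum (by positivity)) ?_ (by positivity)).trans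
    (le_of_eq (by ring))
  exact mul_nonneg (by positivity)
    (sum_nonneg fun p _ => sum_nonneg fun p' _ => clip_nonneg (by positivity) _)

/-- The sum of the windows over `(X, 2 X]`. -/
theorem sum_windows_le {G : ℕ → ℝ} (hG : ∀ n, 0 ≤ G n) {X h : ℕ} (hh : h ≤ X) :
    ∑ m ∈ Ioc X (2 * X), ∑ n ∈ Ioc m (m + h), G n ≤ h * ∑ n ∈ Icc 1 (3 * X), G n := by
  calc ∑ m ∈ Ioc X (2 * X), ∑ n ∈ Ioc m (m + h), G n
      = ∑ m ∈ Ioc X (2 * X), ∑ n ∈ Icc 1 (3 * X), if n ∈ Ioc m (m + h) then G n else 0 := by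
        refine sum_congr rfl fun m hm => ?_
        rw [← sum_filter]
        refine sum_congr ?_ fun _ _ => rfl
        rw [mem_Ioc] at hm
        ext n
        simp only [mem_filter, mem_Ioc, mem_Icc]
        omega
    _ ≤ _ := by
        rw [sum_comm, mul_sum]
        refine sum_le_sum fun n _ => ?_
        rw [← sum_filter, sum_const, nsmul_eq_mul]
        refine mul_le_mul_of_nonneg_right (Nat.cast_le.2 ?_) (hG n)
        refine (card_le_card (t := Ico (n - h) n) fun m hm => ?_).trans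
          (by rw [Nat.card_Ico]; omega)
        simp only [mem_filter, mem_Ioc] at hm
        rw [mem_Ico]
        omega

/-- The sum weighted by the number of divisors is bilinear. -/
theorem sum_countIn_eq_blocks (F : Twist) {s : Finset ℕ} (hs : ∀ p ∈ s, p.Prime) {b : ℕ}
    (hsb : ∀ p ∈ s, p < 2 ^ b) (α : ℝ) {X h m : ℕ} (hm : m + h ≤ 3 * X) :
    ∑ n ∈ Ioc m (m + h), (countIn s n : ℂ) * (F.fn n * eAdd (n * α)) =
      ∑ i ∈ range b, blockSum (s.filter fun p => Nat.log 2 p = i) F.fn F.fn α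
        (3 * X / 2 ^ i) h m := by
  simp only [countIn, Complex.ofReal_sum, sum_mul, apply_ite Complex.ofReal, ite_mul,
    Complex.ofReal_one, Complex.ofReal_zero, one_mul, zero_mul]
  rw [sum_comm, ← sum_fiberwise_of_maps_to (t := range b) (g := fun p => Nat.log 2 p)
    fun p hp => mem_range.2 (Nat.log_lt_of_lt_pow (hs p hp).ne_zero (hsb p hp))]
  refine sum_congr rfl fun i _ => sum_congr rfl fun p hp => ?_
  obtain ⟨hp, hpi⟩ := mem_filter.1 hp
  have hp0 := (hs p hp).pos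
  have hpl : 2 ^ i ≤ p := hpi ▸ Nat.pow_log_le_self 2 hp0.ne'
  simp only [bilTerm, mul_ite, mul_zero]
  rw [← sum_filter, ← sum_filter]
  symm
  refine sum_bij (fun l _ => p * l) (fun l hl => ?_) (fun a _ c _ e => ?_) (fun n hn => ?_)
    fun l _ => ?_
  · rw [mem_filter] at hl ⊢
    exact ⟨hl.2, dvd_mul_right p l⟩
  · exact Nat.eq_of_mul_eq_mul_left hp0 e
  · obtain ⟨hn, l, rfl⟩ := mem_filter.1 hn
    refine ⟨l, mem_filter.2 ⟨mem_Ioc.2 ⟨?_, ?_⟩, hn⟩, rfl⟩
    · rw [mem_Ioc] at hn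
      exact Nat.pos_of_ne_zero fun h0 => by simp [h0] at hn
    · rw [mem_Ioc] at hn
      rw [Nat.le_div_iff_mul_le (by positivity)]
      have := Nat.mul_le_mul_left l hpl
      rw [mul_comm l p] at this
      omega
  · rw [F.map_mul]
    ring

theorem sum_geom_le_inv {r : ℝ} (h0 : 0 ≤ r) (h1 : r < 1) (b : ℕ) :
    ∑ i ∈ range b, r ^ i ≤ 1 / (1 - r) := by
  rw [geom_sum_eq h1.ne b, one_div, ← neg_div_neg_eq, neg_sub, neg_sub, div_eq_mul_inv]
  exact mul_le_of_le_one_left (by positivity [sub_pos.2 h1]) (by linarith [pow_nonneg h0 b])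

/-- **Minor arcs.** -/
theorem sum_winSum_minor_le (F : Twist) {s : Finset ℕ} (hs : ∀ p ∈ s, p.Prime) {b : ℕ}
    (hsb : ∀ p ∈ s, p < 2 ^ b) (hL : 1 ≤ recipSum s) {α : ℝ} {q : ℕ} [NeZero q] {a : ℤ}
    (ha : IsUnit (a : ZMod q)) (hα : |α - a / q| ≤ 1 / (q : ℝ) ^ 2) {X h : ℕ} (hbq : 2 ^ b ≤ q)
    (hbh : 2 ^ b ≤ h) (hhX : h ≤ X) (hq : 2 * q * (1 + Real.log q) * 2 ^ b ≤ h) :
    ∑ m ∈ Ioc X (2 * X), ‖winSum F.fn α h m‖ ^ 2 ≤ 14266 / recipSum s * X * (h : ℝ) ^ 2 := by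
  obtain ⟨L, hLdef⟩ : ∃ L, L = recipSum s := ⟨_, rfl⟩
  rw [← hLdef] at hL ⊢
  obtain ⟨B, hB⟩ : ∃ B : ℕ → ℕ → ℂ, B = fun i m =>
      blockSum (s.filter fun p => Nat.log 2 p = i) F.fn F.fn α (3 * X / 2 ^ i) h m := ⟨_, rfl⟩
  obtain ⟨E, hE⟩ : ∃ E : ℕ → ℝ,
      E = fun m => ∑ n ∈ Ioc m (m + h), (countIn s n - L) ^ 2 := ⟨_, rfl⟩
  have hblock : ∀ i ∈ range b,
      ∑ m ∈ Ioc X (2 * X), ‖B i m‖ ^ 2 ≤ 594 * X * (h : ℝ) ^ 2 / (2 : ℝ) ^ i := fun i hi => by
    have hib : 2 ^ i ≤ 2 ^ b := Nat.pow_le_pow_right two_pos (mem_range.1 hi).le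
    simp only [hB]
    refine le_of_le_of_eq (sum_blockSum_minor_le F.norm_le F.norm_le ha hα (Nat.one_le_two_pow)
      (fun p hp => ?_) (hib.trans hbq) (hib.trans hbh) (le_trans ?_ hq) _) (by norm_num)
    · obtain ⟨hp, hpi⟩ := mem_filter.1 hp
      refine mem_Icc.2 ⟨hpi ▸ Nat.pow_log_le_self 2 (hs p hp).ne_zero, ?_⟩
      have := Nat.lt_pow_succ_log_self one_lt_two p
      rw [hpi, pow_succ] at this
      omega
    · refine mul_le_mul_of_nonneg_left ?_ (by positivity [Real.log_natCast_nonneg q])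
      exact_mod_cast hib
  have hpt : ∀ m ∈ Ioc X (2 * X), L ^ 2 * ‖winSum F.fn α h m‖ ^ 2 ≤
      2 * (h * E m) + 8 * ∑ i ∈ range b, ‖B i m‖ ^ 2 / (3 / 4 : ℝ) ^ i := fun m hm => by
    rw [mem_Ioc] at hm
    have e : (L : ℂ) * winSum F.fn α h m =
        ∑ n ∈ Ioc m (m + h), ((L - countIn s n : ℝ) : ℂ) * (F.fn n * eAdd (n * α)) +
          ∑ i ∈ range b, B i m := by
      simp only [hB]
      rw [← sum_countIn_eq_blocks F hs hsb α (by omega : m + h ≤ 3 * X), winSum, mul_sum,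
        ← sum_add_distrib]
      refine sum_congr rfl fun n _ => ?_
      push_cast
      ring
    have h1 := congrArg norm e
    rw [norm_mul, Complex.norm_real, Real.norm_of_nonneg (by linarith)] at h1
    rw [← mul_pow, h1]
    refine (pow_le_pow_left₀ (norm_nonneg _) (norm_add_le _ _) 2).trans
      ((add_sq_le).trans ?_)
    rw [mul_add, show (8 : ℝ) = 2 * 4 by norm_num, mul_assoc 2 (4 : ℝ)]
    refine add_le_add (mul_le_mul_of_nonneg_left ?_ two_pos.le)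
      (mul_le_mul_of_nonneg_left ?_ two_pos.le)
    · refine (pow_le_pow_left₀ (norm_nonneg _) ((norm_sum_le _ _).trans
        (sum_le_sum fun n _ => (show _ ≤ |countIn s n - L| from ?_))) 2).trans
        (sq_sum_le_card_mul_sum_sq.trans (le_of_eq ?_))
      · rw [norm_mul, Complex.norm_real, Real.norm_eq_abs, abs_sub_comm]
        refine mul_le_of_le_one_right (abs_nonneg _) ?_
        rw [norm_mul, norm_eAdd, mul_one]
        exact F.norm_le n
      · simp [hE, sq_abs]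
    · have hw : ∀ i ∈ range b, (0 : ℝ) < (3 / 4 : ℝ) ^ i := fun i _ => by positivity
      have h2 := sq_sum_div_le_sum_sq_div (range b) (fun i => ‖B i m‖) hw
      rcases Nat.eq_zero_or_pos b with rfl | hb0
      · simp
      rw [div_le_iff₀ (sum_pos hw (nonempty_range_iff.2 hb0.ne'))] at h2
      refine (pow_le_pow_left₀ (norm_nonneg _) (norm_sum_le _ _) 2).trans (h2.trans ?_)
      rw [mul_comm (4 : ℝ)]
      exact mul_le_mul_of_nonneg_left ((sum_geom_le_inv (by norm_num) (by norm_num) b).trans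
        (by norm_num)) (sum_nonneg fun i _ => by positivity)
  have hturan : ∑ m ∈ Ioc X (2 * X), E m ≤ h * (5 * X * L) := by
    simp only [hE]
    refine (sum_windows_le (fun n => sq_nonneg _) hhX).trans
      (mul_le_mul_of_nonneg_left ?_ (Nat.cast_nonneg h))
    refine (le_of_eq_of_le (by rw [hLdef]) (sum_sq_countIn_sub_le hs (3 * X))).trans ?_
    have hc : (s.card : ℝ) ≤ X := by
      refine Nat.cast_le.2 ((card_le_card (t := range (2 ^ b)) fun p hp =>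
        mem_range.2 (hsb p hp)).trans ?_)
      rw [card_range]
      exact hbh.trans hhX
    rw [← hLdef]
    push_cast
    nlinarith
  have hblocks : ∑ m ∈ Ioc X (2 * X), ∑ i ∈ range b, ‖B i m‖ ^ 2 / (3 / 4 : ℝ) ^ i ≤
      1782 * X * (h : ℝ) ^ 2 := by
    rw [sum_comm]
    simp only [← sum_div]
    calc ∑ i ∈ range b, (∑ m ∈ Ioc X (2 * X), ‖B i m‖ ^ 2) / (3 / 4 : ℝ) ^ i
        ≤ ∑ i ∈ range b, 594 * X * (h : ℝ) ^ 2 / (2 : ℝ) ^ i / (3 / 4 : ℝ) ^ i :=
          sum_le_sum fun i hi => div_le_div_of_nonneg_right (hblock i hi) (by positivity)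
      _ = 594 * X * (h : ℝ) ^ 2 * ∑ i ∈ range b, (2 / 3 : ℝ) ^ i := by
          rw [mul_sum]
          refine sum_congr rfl fun i _ => ?_
          rw [div_div, ← mul_pow, div_eq_mul_inv, ← inv_pow]
          norm_num
      _ ≤ 594 * X * (h : ℝ) ^ 2 * (1 / (1 - 2 / 3)) :=
          mul_le_mul_of_nonneg_left (sum_geom_le_inv (by norm_num) (by norm_num) b)
            (by positivity)
      _ = _ := by ring
  have hfin : L ^ 2 * ∑ m ∈ Ioc X (2 * X), ‖winSum F.fn α h m‖ ^ 2 ≤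
      L * (14266 * X * (h : ℝ) ^ 2) := by
    rw [mul_sum]
    refine (sum_le_sum hpt).trans ?_
    rw [sum_add_distrib, ← mul_sum, ← mul_sum, ← mul_sum]
    have h0 : 0 ≤ (X : ℝ) * (h : ℝ) ^ 2 := by positivity
    nlinarith [mul_le_mul_of_nonneg_left hturan (Nat.cast_nonneg (α := ℝ) h),
      mul_le_mul_of_nonneg_right hL h0]
  rw [div_mul_eq_mul_div, div_mul_eq_mul_div, le_div_iff₀ (by linarith)]
  exact le_of_mul_le_mul_left (by linarith) (show 0 < L by linarith)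

end FA.ShortExpSums

end
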